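import Mathlib
import Fermat.Agent.LT.T7.H341.WBasisQSpec
import Fermat.Agent.LT.T2.H886.CuspAlg
import Fermat.Agent.LT.A2.H751.LocalCont

/-!
# Row LT, tower T7, leaf T7.L2Q.3.7.4.1 = `WBQ341.V2SubQC341 n` (helper157)

OFF-MAIN.  ADDITIVE (new names only, all ending in `157`).  Every proof is complete, nothing
assumed.  Target: `WBQ341.V2SubQC341 n` of `T7/H341/WBasisQSpec.lean`
(helper341@5d9a56aeb, sha256 2acd5e1828b68f54) VERBATIM, for both `n : L2Q.QWt`.

    v2SubQC157 (n) : WBQ341.V2SubQC341 n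

Assets: `T2.H886.isCuspidalFn_add886` (the constant term is additive on bounded continuous
functions: a fundamental domain of `ℚ` in `𝔸_ℚ` has finite measure), `A2.H751.continuous_of_local751`
(a family supported at one infinite place with continuous component of determinant `1` is
continuous: the circle of the mean values is a continuous family).
-/

set_option autoImplicit false

open AutomorphicForm IsDedekindDomain NumberField MeasureTheory
open scoped ComplexConjugate

noncomputable section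

namespace Fermat.Agent.LT.T7.H157

open Fermat.Agent.LT.H556 Fermat.Agent.LT.H556.A0 Fermat.Agent.LT.H670 Fermat.Agent.LT.T7
open Fermat.Agent.LT.T7.L2Q Fermat.Agent.LT.T7.SDQ140 Fermat.Agent.LT.T7.WBQ341

attribute [local instance] Fermat.Agent.LT.T5.instMeasurableSpaceG

/-! ## 1. Cusp functions of a given type -/

section Cusp

variable {K : Type} [Field K] [NumberField K]

theorem isCuspFn5_zero157 (𝔫 : Ideal (𝓞 K)) (τ : G K → ℂ) (r : G K) :
    T5.IsCuspFn 𝔫 τ r (fun _ : G K => (0 : ℂ)) where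
  cont := continuous_const
  bdd := ⟨0, fun _ => by simp⟩
  aut :=
    { left_inv := fun _ _ => rfl
      level_inv := fun _ _ _ => rfl
      arch_compact := fun _ _ _ _ => (mul_zero _).symm
      ray := fun _ => rfl }
  cuspidal := T2.H886.isCuspidalFn_zero886

theorem isCuspFn5_add157 {𝔫 : Ideal (𝓞 K)} {τ : G K → ℂ} {r : G K} {f f' : G K → ℂ}
    (h : T5.IsCuspFn 𝔫 τ r f) (h' : T5.IsCuspFn 𝔫 τ r f') :
    T5.IsCuspFn 𝔫 τ r (fun g => f g + f' g) where
  cont := h.cont.add h'.cont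
  bdd := by
    obtain ⟨C, hC⟩ := h.bdd
    obtain ⟨C', hC'⟩ := h'.bdd
    exact ⟨C + C', fun g => le_trans (norm_add_le _ _) (add_le_add (hC g) (hC' g))⟩
  aut :=
    { left_inv := fun γ g => by rw [h.aut.left_inv γ g, h'.aut.left_inv γ g]
      level_inv := fun u hu g => by rw [h.aut.level_inv u hu g, h'.aut.level_inv u hu g]
      arch_compact := fun w k hk g => by
        rw [h.aut.arch_compact w k hk g, h'.aut.arch_compact w k hk g, mul_add]
      ray := fun g => by rw [h.aut.ray g, h'.aut.ray g] }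
  cuspidal := by
    obtain ⟨C, hC⟩ := h.bdd
    obtain ⟨C', hC'⟩ := h'.bdd
    exact T2.H886.isCuspidalFn_add886 h.cont hC h'.cont hC' h.cuspidal h'.cuspidal

theorem isCuspFn5_smul157 {𝔫 : Ideal (𝓞 K)} {τ : G K → ℂ} {r : G K} {f : G K → ℂ}
    (a : ℂ) (h : T5.IsCuspFn 𝔫 τ r f) : T5.IsCuspFn 𝔫 τ r (fun g => a * f g) where
  cont := continuous_const.mul h.cont
  bdd := by
    obtain ⟨C, hC⟩ := h.bdd
    refine ⟨‖a‖ * C, fun g => ?_⟩
    rw [norm_mul]
    exact mul_le_mul_of_nonneg_left (hC g) (norm_nonneg a)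
  aut :=
    { left_inv := fun γ g => by rw [h.aut.left_inv γ g]
      level_inv := fun u hu g => by rw [h.aut.level_inv u hu g]
      arch_compact := fun w k hk g => by
        rw [h.aut.arch_compact w k hk g, mul_left_comm]
      ray := fun g => by rw [h.aut.ray g] }
  cuspidal := T2.H886.isCuspidalFn_const_mul886 a h.cuspidal

theorem isHeckeEigenAt_add157 {f f' : G K → ℂ} {v : HeightOneSpectrum (𝓞 K)} {a b : ℂ}
    (h : IsHeckeEigenAt f v a b) (h' : IsHeckeEigenAt f' v a b) :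
    IsHeckeEigenAt (fun g => f g + f' g) v a b := by
  refine ⟨fun H hH g => ?_, fun z hz g => ?_⟩
  · rw [Finset.sum_add_distrib, h.1 H hH g, h'.1 H hH g, mul_add]
  · show f (g * z) + f' (g * z) = _
    rw [h.2 z hz g, h'.2 z hz g, mul_add]

theorem isHeckeEigenAt_smul157 {f : G K → ℂ} {v : HeightOneSpectrum (𝓞 K)} {a b : ℂ} (t : ℂ)
    (h : IsHeckeEigenAt f v a b) : IsHeckeEigenAt (fun g => t * f g) v a b := by
  refine ⟨fun H hH g => ?_, fun z hz g => ?_⟩
  · rw [← Finset.mul_sum, h.1 H hH g]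
    ring
  · show t * f (g * z) = _
    rw [h.2 z hz g]
    ring

end Cusp

/-! ## 2. The circles of the mean values are continuous families -/

section Circle

theorem continuous_rotY157 : Continuous A0.rotY := by
  unfold A0.rotY
  refine continuous_matrix fun i j => ?_
  fin_cases i <;> fin_cases j <;> simp <;> fun_prop

theorem continuous_rotC157 : Continuous QOut.rotC := by
  unfold QOut.rotC
  refine continuous_matrix fun i j => ?_
  fin_cases i <;> fin_cases j <;> simp <;> fun_prop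

theorem det_rotY157 (β : ℝ) : (A0.rotY β).det = 1 := by
  unfold A0.rotY
  rw [Matrix.det_fin_two_of]
  have := Real.cos_sq_add_sin_sq (β / 2)
  have e : ((Real.cos (β / 2) : ℝ) : ℂ) * ((Real.cos (β / 2) : ℝ) : ℂ)
      - -((Real.sin (β / 2) : ℝ) : ℂ) * ((Real.sin (β / 2) : ℝ) : ℂ)
      = ((Real.cos (β / 2) ^ 2 + Real.sin (β / 2) ^ 2 : ℝ) : ℂ) := by
    push_cast
    ring
  rw [e, this, Complex.ofReal_one]

theorem det_rotC157 (θ : ℝ) : (QOut.rotC θ).det = 1 := by
  unfold QOut.rotC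
  rw [Matrix.det_fin_two_of]
  have := Real.cos_sq_add_sin_sq θ
  have e : ((Real.cos θ : ℝ) : ℂ) * ((Real.cos θ : ℝ) : ℂ)
      - ((Real.sin θ : ℝ) : ℂ) * -((Real.sin θ : ℝ) : ℂ)
      = ((Real.cos θ ^ 2 + Real.sin θ ^ 2 : ℝ) : ℂ) := by
    push_cast
    ring
  rw [e, this, Complex.ofReal_one]

theorem det_torus157 (t : ℝ) : (A0.torus t).det = 1 := by
  unfold A0.torus
  rw [Matrix.det_fin_two_of, mul_zero, sub_zero, ← Complex.ofReal_mul, ← Real.exp_add]
  simp

variable {K : Type} [Field K] [NumberField K]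

/-- A family supported at `w` with component `M θ * N` (`M` continuous, determinants `1`) is
continuous. -/
theorem continuous_circle157 (w : InfinitePlace K) {M : ℝ → Matrix (Fin 2) (Fin 2) ℂ}
    (hM : Continuous M) (hMd : ∀ θ, (M θ).det = 1) {N : Matrix (Fin 2) (Fin 2) ℂ}
    (hN : N.det = 1) {Y : ℝ → G K}
    (hY : ∀ θ : ℝ, IsLocalAtInf w (Y θ) ∧ infComp w (Y θ) = M θ * N) : Continuous Y := by
  have e : (fun θ => infComp w (Y θ)) = fun θ => M θ * N := funext fun θ => (hY θ).2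
  refine A2.H751.continuous_of_local751 w Y (fun θ => (hY θ).1) ?_ fun θ => ?_
  · rw [e]
    exact hM.matrix_mul continuous_const
  · rw [(hY θ).2, Matrix.det_mul, hMd θ, hN, mul_one]

end Circle

/-! ## 3. `V₂` and its classes are linear -/

section V2

variable {n : QWt} {𝔫 : Ideal (𝓞 ℚ)} {r : G ℚ}

theorem inV2Q_zero157 (n : QWt) (𝔫 : Ideal (𝓞 ℚ)) (r : G ℚ) :
    InV2Q341 n 𝔫 r (0 : G ℚ → ℂ) :=
  ⟨isCuspFn5_zero157 𝔫 n.type r, fun _ _ _ _ => rfl⟩

theorem inV2Q_add157 {f f' : G ℚ → ℂ} (h : InV2Q341 n 𝔫 r f) (h' : InV2Q341 n 𝔫 r f') :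
    InV2Q341 n 𝔫 r (f + f') :=
  ⟨isCuspFn5_add157 h.cusp h'.cusp, fun w z hz g => by
    show f (g * z) + f' (g * z) = f g + f' g
    rw [h.arch_scalar w z hz g, h'.arch_scalar w z hz g]⟩

theorem inV2Q_smul157 (a : ℂ) {f : G ℚ → ℂ} (h : InV2Q341 n 𝔫 r f) :
    InV2Q341 n 𝔫 r (a • f) :=
  ⟨isCuspFn5_smul157 a h.cusp, fun w z hz g => by
    show a * f (g * z) = a * f g
    rw [h.arch_scalar w z hz g]⟩

theorem meanEig_add157 (n : QWt) {f f' : G ℚ → ℂ} (hf : Continuous f) (hf' : Continuous f')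
    {w : InfinitePlace ℚ} {m : ℝ → ℂ} (h : n.MeanEig f w m) (h' : n.MeanEig f' w m) :
    n.MeanEig (f + f') w m := by
  cases n with
  | w0 =>
    intro t ht Y hY g
    have hYc : Continuous Y :=
      continuous_circle157 w continuous_rotY157 det_rotY157 (det_torus157 t) hY
    have c1 : Continuous fun θ => f (g * Y θ) := hf.comp (continuous_const.mul hYc)
    have c2 : Continuous fun θ => f' (g * Y θ) := hf'.comp (continuous_const.mul hYc)
    show (∫ θ in (0 : ℝ)..(2 * Real.pi), (f (g * Y θ) + f' (g * Y θ))) = m t * (f g + f' g)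
    rw [intervalIntegral.integral_add (c1.intervalIntegrable _ _) (c2.intervalIntegrable _ _),
      h t ht Y hY g, h' t ht Y hY g, mul_add]
  | w1 =>
    intro t ht Y hY g
    have hYc : Continuous Y :=
      continuous_circle157 w continuous_rotC157 det_rotC157 (det_torus157 t) hY
    have ce : Continuous fun θ : ℝ => Complex.exp (-(Complex.I * ((θ : ℝ) : ℂ))) := by
      fun_prop
    have c1 : Continuous fun θ => Complex.exp (-(Complex.I * ((θ : ℝ) : ℂ))) * f (g * Y θ) :=
      ce.mul (hf.comp (continuous_const.mul hYc))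
    have c2 : Continuous fun θ => Complex.exp (-(Complex.I * ((θ : ℝ) : ℂ))) * f' (g * Y θ) :=
      ce.mul (hf'.comp (continuous_const.mul hYc))
    show (∫ θ in (0 : ℝ)..(2 * Real.pi),
        Complex.exp (-(Complex.I * ((θ : ℝ) : ℂ))) * (f (g * Y θ) + f' (g * Y θ)))
      = m t * (f g + f' g)
    simp only [mul_add]
    rw [intervalIntegral.integral_add (c1.intervalIntegrable _ _) (c2.intervalIntegrable _ _),
      h t ht Y hY g, h' t ht Y hY g]

theorem meanEig_smul157 (n : QWt) (a : ℂ) {f : G ℚ → ℂ} {w : InfinitePlace ℚ} {m : ℝ → ℂ}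
    (h : n.MeanEig f w m) : n.MeanEig (a • f) w m := by
  cases n with
  | w0 =>
    intro t ht Y hY g
    show (∫ θ in (0 : ℝ)..(2 * Real.pi), a * f (g * Y θ)) = m t * (a * f g)
    rw [intervalIntegral.integral_const_mul, h t ht Y hY g]
    ring
  | w1 =>
    intro t ht Y hY g
    show (∫ θ in (0 : ℝ)..(2 * Real.pi),
        Complex.exp (-(Complex.I * ((θ : ℝ) : ℂ))) * (a * f (g * Y θ))) = m t * (a * f g)
    simp only [mul_left_comm _ a]
    rw [intervalIntegral.integral_const_mul, h t ht Y hY g]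

theorem inCls2Q_add157 {c : EigData ℚ} {f f' : G ℚ → ℂ} (h : InCls2Q341 n 𝔫 r c f)
    (h' : InCls2Q341 n 𝔫 r c f') : InCls2Q341 n 𝔫 r c (f + f') :=
  ⟨inV2Q_add157 h.inv h'.inv,
    fun v hv => isHeckeEigenAt_add157 (h.hecke v hv) (h'.hecke v hv),
    fun w => meanEig_add157 n h.inv.cusp.cont h'.inv.cusp.cont (h.mean w) (h'.mean w)⟩

theorem inCls2Q_smul157 {c : EigData ℚ} (a : ℂ) {f : G ℚ → ℂ} (h : InCls2Q341 n 𝔫 r c f) :
    InCls2Q341 n 𝔫 r c (a • f) :=
  ⟨inV2Q_smul157 a h.inv, fun v hv => isHeckeEigenAt_smul157 a (h.hecke v hv),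
    fun w => meanEig_smul157 n a (h.mean w)⟩

/-- **LEAF T7.L2Q.3.7.4.1 = WBQ.1: `V₂` and its classes are linear subspaces.** -/
theorem v2SubQC157 (n : QWt) : V2SubQC341 n := fun 𝔫 r _ =>
  { zero2 := inV2Q_zero157 n 𝔫 r
    add2 := fun _ _ h h' => inV2Q_add157 h h'
    smul2 := fun a _ h => inV2Q_smul157 a h
    addC2 := fun _ _ _ h h' => inCls2Q_add157 h h'
    smulC2 := fun _ a _ h => inCls2Q_smul157 a h }

end V2

end Fermat.Agent.LT.T7.H157

end
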