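import Mathlib
import Fermat.Agent.LT.T7.H561.BlocksSpec

/-!
# Row LT, tower T7, leaf T7.L2.2.B7 (helper157): coordinate calculus in a class

OFF-MAIN.  ADDITIVE (new names only, all ending in `157`).  Every proof is complete, nothing
assumed.  Bounded continuous functions, the inner product on the fundamental domain, additive
operators (finite sums of translations) and their matrices in an orthonormal family.
-/

set_option autoImplicit false

open AutomorphicForm IsDedekindDomain NumberField MeasureTheory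
open scoped ComplexConjugate Matrix

noncomputable section

namespace Fermat.Agent.LT.T7.H157

open Fermat.Agent.LT.H556 Fermat.Agent.LT.H556.A0 Fermat.Agent.LT.T7 Fermat.Agent.LT.T7.H561

attribute [local instance] Fermat.Agent.LT.T5.instMeasurableSpaceG

variable {K : Type} [Field K] [NumberField K]

/-! ## 1. Bounded continuous functions and the inner product -/

/-- Bounded continuous functions. -/
def Nice157 (ψ : G K → ℂ) : Prop := Continuous ψ ∧ ∃ C : ℝ, ∀ g : G K, ‖ψ g‖ ≤ C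

theorem nice_of_cusp157 {𝔫 : Ideal (𝓞 K)} {τ : G K → ℂ} {r : G K} {ψ : G K → ℂ}
    (h : T5.IsCuspFn 𝔫 τ r ψ) : Nice157 ψ := ⟨h.cont, h.bdd⟩

theorem integrable_mul_conj157 {μ : Measure (G K)} {F : Set (G K)} (hF : μ F < ⊤)
    {ψ χ : G K → ℂ} (hψ : Nice157 ψ) (hχ : Nice157 χ) :
    Integrable (fun x => ψ x * conj (χ x)) (μ.restrict F) := by
  have : BorelSpace (G K) := ⟨rfl⟩
  have : IsFiniteMeasure (μ.restrict F) := ⟨by rw [Measure.restrict_apply_univ]; exact hF⟩
  obtain ⟨hc1, C1, h1⟩ := hψ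
  obtain ⟨hc2, C2, h2⟩ := hχ
  have hcont : Continuous (fun x => ψ x * conj (χ x)) :=
    hc1.mul (Complex.continuous_conj.comp hc2)
  refine Integrable.mono' (integrable_const (|C1| * |C2|)) hcont.aestronglyMeasurable
    (Filter.Eventually.of_forall fun x => ?_)
  rw [norm_mul, RCLike.norm_conj]
  exact mul_le_mul ((h1 x).trans (le_abs_self _)) ((h2 x).trans (le_abs_self _))
    (norm_nonneg _) (abs_nonneg _)

theorem innerD_conj157 (μ : Measure (G K)) (F : Set (G K)) (e f : G K → ℂ) :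
    conj (T5.innerD μ F e f) = T5.innerD μ F f e := by
  unfold T5.innerD
  rw [← integral_conj]
  refine integral_congr_ae (Filter.Eventually.of_forall fun x => ?_)
  simp [mul_comm]

theorem innerD_sum_left157 {μ : Measure (G K)} {F : Set (G K)} (hF : μ F < ⊤) {n : ℕ}
    (d : Fin n → ℂ) {f : Fin n → G K → ℂ} (hf : ∀ b, Nice157 (f b)) {h : G K → ℂ}
    (hh : Nice157 h) :
    T5.innerD μ F (fun x => ∑ b, d b * f b x) h = ∑ b, d b * T5.innerD μ F (f b) h := by
  unfold T5.innerD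
  have e1 : ∀ x, (∑ b, d b * f b x) * conj (h x) = ∑ b, d b * (f b x * conj (h x)) := by
    intro x
    rw [Finset.sum_mul]
    exact Finset.sum_congr rfl fun b _ => by ring
  simp only [e1]
  rw [integral_finsetSum]
  · exact Finset.sum_congr rfl fun b _ => integral_const_mul _ _
  · intro b _
    exact (integrable_mul_conj157 hF (hf b) hh).const_mul _

theorem innerD_sum_right157 {μ : Measure (G K)} {F : Set (G K)} (hF : μ F < ⊤) {n : ℕ}
    (d : Fin n → ℂ) {f : Fin n → G K → ℂ} (hf : ∀ b, Nice157 (f b)) {h : G K → ℂ}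
    (hh : Nice157 h) :
    T5.innerD μ F h (fun x => ∑ b, d b * f b x) = ∑ b, conj (d b) * T5.innerD μ F h (f b) := by
  rw [← innerD_conj157, innerD_sum_left157 hF d hf hh, map_sum]
  refine Finset.sum_congr rfl fun b _ => ?_
  rw [map_mul, innerD_conj157]

/-! ## 2. Additive operators -/

/-- The finite linear combination of the family `f` with coefficients `c`. -/
def lin157 {n : ℕ} (f : Fin n → G K → ℂ) (c : Fin n → ℂ) : G K → ℂ :=
  fun x => ∑ a, c a * f a x

/-- `T` commutes with finite linear combinations (pointwise). -/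
def IsLin157 (T : (G K → ℂ) → (G K → ℂ)) : Prop :=
  ∀ (n : ℕ) (c : Fin n → ℂ) (f : Fin n → G K → ℂ),
    T (lin157 f c) = lin157 (fun a => T (f a)) c

theorem isLin_id157 : IsLin157 (K := K) (fun ψ => ψ) := fun _ _ _ => rfl

theorem isLin_comp157 {T₁ T₂ : (G K → ℂ) → (G K → ℂ)} (h₁ : IsLin157 T₁) (h₂ : IsLin157 T₂) :
    IsLin157 (fun ψ => T₁ (T₂ ψ)) := by
  intro n c f
  show T₁ (T₂ (lin157 f c)) = _
  rw [h₂ n c f, h₁ n c]

theorem isLin_iterate157 {T : (G K → ℂ) → (G K → ℂ)} (h : IsLin157 T) (m : ℕ) :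
    IsLin157 (T^[m]) := by
  induction m with
  | zero => exact fun _ _ _ => rfl
  | succ m ih =>
    intro n c f
    rw [Function.iterate_succ_apply, h n c f, ih n c]
    rfl

theorem isLin_smul157 {T : (G K → ℂ) → (G K → ℂ)} (h : IsLin157 T) (t : ℂ) :
    IsLin157 (fun ψ x => t * T ψ x) := by
  intro n c f
  funext x
  show t * T (lin157 f c) x = _
  rw [h n c f]
  simp only [lin157, Finset.mul_sum]
  exact Finset.sum_congr rfl fun a _ => by ring

theorem isLin_add157 {T₁ T₂ : (G K → ℂ) → (G K → ℂ)} (h₁ : IsLin157 T₁) (h₂ : IsLin157 T₂) :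
    IsLin157 (fun ψ x => T₁ ψ x + T₂ ψ x) := by
  intro n c f
  funext x
  show T₁ (lin157 f c) x + T₂ (lin157 f c) x = _
  rw [h₁ n c f, h₂ n c f]
  simp only [lin157, ← Finset.sum_add_distrib]
  exact Finset.sum_congr rfl fun a _ => by ring

theorem isLin_tr157 (h : G K) : IsLin157 (trOp561 h) := fun _ _ _ => rfl

theorem isLin_shift157 (z : G K) (k : ℤ) : IsLin157 (shiftOp z k) := fun _ _ _ => rfl

theorem isLin_Rsig157 (s : T5.AdelicAut K) : IsLin157 (T5.Rsig s) := fun _ _ _ => rfl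

theorem isLin_coset157 (H : Finset (G K)) : IsLin157 (cosetOp H) := by
  intro n c f
  funext x
  show (∑ h ∈ H, ∑ a, c a * f a (x * h)) = ∑ a, c a * ∑ h ∈ H, f a (x * h)
  rw [Finset.sum_comm]
  exact Finset.sum_congr rfl fun a _ => (Finset.mul_sum _ _ _).symm

theorem iwOp_eq157 (w : HeightOneSpectrum (𝓞 K)) (H : Finset (G K)) (ψ : G K → ℂ) :
    iwOp w H ψ
      = fun x => ((Real.sqrt (Ideal.absNorm w.asIdeal : ℝ) : ℝ) : ℂ)⁻¹ * cosetOp H ψ x := rfl

theorem isLin_iw157 (w : HeightOneSpectrum (𝓞 K)) (H : Finset (G K)) : IsLin157 (iwOp w H) := by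
  have h := isLin_smul157 (isLin_coset157 H)
    (((Real.sqrt (Ideal.absNorm w.asIdeal : ℝ) : ℝ) : ℂ)⁻¹)
  exact h

/-- `I t I = (I s I) · ω`: the Iwahori operator of the translated system. -/
theorem iwOp_map157 (w : HeightOneSpectrum (𝓞 K)) (H : Finset (G K)) (ω' : G K)
    (ψ : G K → ℂ) :
    iwOp w (H.map (mulRightEmbedding ω')) ψ
      = fun x => ((Real.sqrt (Ideal.absNorm w.asIdeal : ℝ) : ℝ) : ℂ)⁻¹
          * cosetOp H (trOp561 ω' ψ) x := by
  funext x
  show ((Real.sqrt (Ideal.absNorm w.asIdeal : ℝ) : ℝ) : ℂ)⁻¹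
        * ∑ h ∈ H.map (mulRightEmbedding ω'), ψ (x * h)
      = ((Real.sqrt (Ideal.absNorm w.asIdeal : ℝ) : ℝ) : ℂ)⁻¹ * ∑ h ∈ H, ψ (x * h * ω')
  rw [Finset.sum_map]
  simp only [mulRightEmbedding_apply, mul_assoc]

theorem trOp_mul157 (a b : G K) (ψ : G K → ℂ) :
    trOp561 (a * b) ψ = trOp561 a (trOp561 b ψ) := by
  funext x
  show ψ (x * (a * b)) = ψ (x * a * b)
  rw [mul_assoc]

theorem shiftOp_zero157 (z : G K) (ψ : G K → ℂ) : shiftOp z 0 ψ = ψ := by
  funext x
  show ψ (x * z ^ (0 : ℤ)) = ψ x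
  rw [zpow_zero, mul_one]

theorem shiftOp_succ157 (z : G K) (n : ℕ) (ψ : G K → ℂ) :
    shiftOp z ((n + 1 : ℕ) : ℤ) ψ = shiftOp z (n : ℤ) (trOp561 z ψ) := by
  funext x
  show ψ (x * z ^ ((n + 1 : ℕ) : ℤ)) = ψ (x * z ^ (n : ℤ) * z)
  rw [zpow_natCast, zpow_natCast, pow_succ, mul_assoc]

theorem shiftOp_neg_cancel157 (z : G K) (n : ℕ) (ψ : G K → ℂ) :
    shiftOp z (-(n : ℤ)) (shiftOp z (n : ℤ) ψ) = ψ := by
  funext x
  show ψ (x * z ^ (-(n : ℤ)) * z ^ (n : ℤ)) = ψ x
  rw [mul_assoc, zpow_neg, inv_mul_cancel, mul_one]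

/-! ## 3. Matrices in an orthonormal family -/

/-- An orthonormal family of bounded continuous functions on a domain of finite measure. -/
structure IsON157 (μ : Measure (G K)) (F : Set (G K)) {n : ℕ} (v : Fin n → G K → ℂ) : Prop where
  fin : μ F < ⊤
  nice : ∀ a, Nice157 (v a)
  orth : ∀ a b, T5.innerD μ F (v a) (v b) = if a = b then 1 else 0

/-- `M` is the matrix of `T` in the family `v`. -/
def Rep157 {n : ℕ} (v : Fin n → G K → ℂ) (T : (G K → ℂ) → (G K → ℂ))
    (M : Matrix (Fin n) (Fin n) ℂ) : Prop :=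
  ∀ a, T (v a) = lin157 v (fun b => M b a)

section Rep

variable {μ : Measure (G K)} {F : Set (G K)} {n : ℕ} {v : Fin n → G K → ℂ}

theorem IsON157.coeff (hv : IsON157 μ F v) (c : Fin n → ℂ) (b : Fin n) :
    T5.innerD μ F (lin157 v c) (v b) = c b := by
  unfold lin157
  rw [innerD_sum_left157 hv.fin c hv.nice (hv.nice b)]
  simp only [hv.orth]
  simp

theorem IsON157.lin_inj (hv : IsON157 μ F v) {c c' : Fin n → ℂ}
    (h : ∀ x, lin157 v c x = lin157 v c' x) : c = c' := by
  funext b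
  rw [← hv.coeff c b, ← hv.coeff c' b, show lin157 v c = lin157 v c' from funext h]

theorem IsON157.nice_lin (hv : IsON157 μ F v) (c : Fin n → ℂ) : Nice157 (lin157 v c) := by
  constructor
  · unfold lin157
    exact continuous_finsetSum _ fun a _ => continuous_const.mul (hv.nice a).1
  · choose C hC using fun a => (hv.nice a).2
    refine ⟨∑ a, ‖c a‖ * C a, fun g => ?_⟩
    unfold lin157
    refine (norm_sum_le _ _).trans (Finset.sum_le_sum fun a _ => ?_)
    rw [norm_mul]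
    exact mul_le_mul_of_nonneg_left (hC a g) (norm_nonneg _)

theorem rep_unique157 (hv : IsON157 μ F v) {T₁ T₂ : (G K → ℂ) → (G K → ℂ)}
    {M₁ M₂ : Matrix (Fin n) (Fin n) ℂ} (h₁ : Rep157 v T₁ M₁) (h₂ : Rep157 v T₂ M₂)
    (h : ∀ a x, T₁ (v a) x = T₂ (v a) x) : M₁ = M₂ := by
  ext b a
  have e : (fun b => M₁ b a) = fun b => M₂ b a :=
    hv.lin_inj fun x => by rw [← h₁ a, ← h₂ a]; exact h a x
  exact congrFun e b

theorem rep_of_span157 (hv : IsON157 μ F v) (T : (G K → ℂ) → (G K → ℂ))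
    (h : ∀ a, ∃ c : Fin n → ℂ, ∀ x, T (v a) x = ∑ b, c b * v b x) :
    Rep157 v T (Matrix.of fun b a => T5.innerD μ F (T (v a)) (v b)) := by
  intro a
  obtain ⟨c, hc⟩ := h a
  have e : T (v a) = lin157 v c := funext hc
  rw [e]
  congr 1
  funext b
  rw [Matrix.of_apply, e, hv.coeff]

theorem rep_apply157 {T : (G K → ℂ) → (G K → ℂ)} {M : Matrix (Fin n) (Fin n) ℂ}
    (hT : IsLin157 T) (h : Rep157 v T M) (c : Fin n → ℂ) :
    T (lin157 v c) = lin157 v (M.mulVec c) := by
  rw [hT n c v]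
  funext x
  simp only [lin157, h _, Matrix.mulVec, dotProduct, Finset.mul_sum, Finset.sum_mul]
  rw [Finset.sum_comm]
  exact Finset.sum_congr rfl fun b _ => Finset.sum_congr rfl fun a _ => by ring

theorem rep_id157 : Rep157 v (fun ψ => ψ) 1 := by
  intro a
  funext x
  simp [lin157, Matrix.one_apply]

theorem rep_comp157 {T₁ T₂ : (G K → ℂ) → (G K → ℂ)} {M₁ M₂ : Matrix (Fin n) (Fin n) ℂ}
    (hT : IsLin157 T₁) (h₁ : Rep157 v T₁ M₁) (h₂ : Rep157 v T₂ M₂) :
    Rep157 v (fun ψ => T₁ (T₂ ψ)) (M₁ * M₂) := by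
  intro a
  show T₁ (T₂ (v a)) = _
  rw [h₂ a, rep_apply157 hT h₁]
  congr 1

theorem rep_smul157 {T : (G K → ℂ) → (G K → ℂ)} {M : Matrix (Fin n) (Fin n) ℂ}
    (h : Rep157 v T M) (t : ℂ) : Rep157 v (fun ψ x => t * T ψ x) (t • M) := by
  intro a
  funext x
  show t * T (v a) x = _
  rw [h a]
  simp only [lin157, Finset.mul_sum, Matrix.smul_apply, smul_eq_mul]
  exact Finset.sum_congr rfl fun b _ => by ring

theorem rep_add157 {T₁ T₂ : (G K → ℂ) → (G K → ℂ)} {M₁ M₂ : Matrix (Fin n) (Fin n) ℂ}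
    (h₁ : Rep157 v T₁ M₁) (h₂ : Rep157 v T₂ M₂) :
    Rep157 v (fun ψ x => T₁ ψ x + T₂ ψ x) (M₁ + M₂) := by
  intro a
  funext x
  show T₁ (v a) x + T₂ (v a) x = _
  rw [h₁ a, h₂ a]
  simp only [lin157, ← Finset.sum_add_distrib, Matrix.add_apply]
  exact Finset.sum_congr rfl fun b _ => by ring

theorem rep_iterate157 {T : (G K → ℂ) → (G K → ℂ)} {M : Matrix (Fin n) (Fin n) ℂ}
    (hT : IsLin157 T) (h : Rep157 v T M) (m : ℕ) : Rep157 v (T^[m]) (M ^ m) := by
  induction m with
  | zero => exact rep_id157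
  | succ m ih =>
    have e := rep_comp157 (isLin_iterate157 hT m) ih h
    rw [← pow_succ] at e
    intro a
    rw [Function.iterate_succ_apply]
    exact e a

theorem rep_congr157 {T T' : (G K → ℂ) → (G K → ℂ)} {M : Matrix (Fin n) (Fin n) ℂ}
    (h : Rep157 v T M) (e : ∀ a, T' (v a) = T (v a)) : Rep157 v T' M :=
  fun a => (e a).trans (h a)

/-- The matrix of a left inverse. -/
theorem rep_inv157 {T T' : (G K → ℂ) → (G K → ℂ)} {W W' : Matrix (Fin n) (Fin n) ℂ}
    (hT' : IsLin157 T') (h : Rep157 v T W) (hinv : ∀ a, T' (T (v a)) = v a)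
    (hW : W * W' = 1) : Rep157 v T' W' := by
  have key : ∀ a, v a = lin157 (fun b => T' (v b)) (fun b => W b a) := by
    intro a
    rw [← hT' n _ v, ← h a, hinv a]
  intro c
  funext x
  have e1 : lin157 v (fun b => W' b c) x
      = ∑ a, W' a c * ∑ b, W b a * T' (v b) x := by
    unfold lin157
    refine Finset.sum_congr rfl fun a _ => ?_
    congr 1
    exact congrFun (key a) x
  rw [e1]
  simp only [Finset.mul_sum]
  rw [Finset.sum_comm]
  have e2 : ∀ b, ∑ a, W' a c * (W b a * T' (v b) x) = (W * W') b c * T' (v b) x := by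
    intro b
    rw [Matrix.mul_apply, Finset.sum_mul]
    exact Finset.sum_congr rfl fun a _ => by ring
  simp only [e2, hW, Matrix.one_apply]
  simp

/-- The powers of a translation, `k ∈ ℤ`. -/
theorem rep_shift157 {z : G K} {U : Matrix (Fin n) (Fin n) ℂ} (h : Rep157 v (trOp561 z) U)
    (hU : IsUnit U.det) (k : ℤ) : Rep157 v (shiftOp z k) (U ^ k) := by
  have hn : ∀ m : ℕ, Rep157 v (shiftOp z (m : ℤ)) (U ^ m) := by
    intro m
    induction m with
    | zero =>
      intro a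
      rw [Nat.cast_zero, shiftOp_zero157, pow_zero]
      exact rep_id157 a
    | succ m ih =>
      have e := rep_comp157 (isLin_shift157 z (m : ℤ)) ih h
      rw [← pow_succ] at e
      intro a
      rw [shiftOp_succ157]
      exact e a
  obtain ⟨m, rfl | rfl⟩ := Int.eq_nat_or_neg k
  · rw [zpow_natCast]
    exact hn m
  · rw [Matrix.zpow_neg_natCast]
    refine rep_inv157 (isLin_shift157 z _) (hn m) (fun a => shiftOp_neg_cancel157 z m _) ?_
    exact Matrix.mul_nonsing_inv _ (by rw [Matrix.det_pow]; exact hU.pow m)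

end Rep

end Fermat.Agent.LT.T7.H157

end
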