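import Mathlib
import Fermat.Agent.LT.T7.H561.BlocksSpec
import Fermat.Agent.LT.T7.H157.BlkLin

/-!
# Row LT, tower T7, leaf T7.L2.2.B7 (helper157): stability of the classes

OFF-MAIN.  ADDITIVE (new names only, all ending in `157`).  Every proof is complete, nothing
assumed.  Agreement of eigen-data outside `S'`, scalar multiples and central translates of the
invariant cusp functions with joint eigen-data.
-/

set_option autoImplicit false

open AutomorphicForm IsDedekindDomain NumberField MeasureTheory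
open scoped ComplexConjugate Matrix

noncomputable section

namespace Fermat.Agent.LT.T7.H157

open Fermat.Agent.LT.H556 Fermat.Agent.LT.H556.A0 Fermat.Agent.LT.T7 Fermat.Agent.LT.T7.H561

attribute [local instance] Fermat.Agent.LT.T5.instMeasurableSpaceG

variable {K : Type} [Field K] [NumberField K]

/-! ## 1. Agreement outside `S` -/

theorem agreeOut_refl157 (S : Finset (HeightOneSpectrum (𝓞 K))) (D : EigData K) :
    D.AgreeOut S D := ⟨fun _ _ => ⟨rfl, rfl⟩, fun _ _ _ => rfl⟩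

theorem agreeOut_symm157 {S : Finset (HeightOneSpectrum (𝓞 K))} {D D' : EigData K}
    (h : D.AgreeOut S D') : D'.AgreeOut S D :=
  ⟨fun w hw => ⟨(h.1 w hw).1.symm, (h.1 w hw).2.symm⟩, fun w d hd => (h.2 w d hd).symm⟩

theorem agreeOut_trans157 {S : Finset (HeightOneSpectrum (𝓞 K))} {D D' D'' : EigData K}
    (h : D.AgreeOut S D') (h' : D'.AgreeOut S D'') : D.AgreeOut S D'' :=
  ⟨fun w hw => ⟨(h.1 w hw).1.trans (h'.1 w hw).1, (h.1 w hw).2.trans (h'.1 w hw).2⟩,
    fun w d hd => (h.2 w d hd).trans (h'.2 w d hd)⟩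

/-- An eigenfunction for `C'` is one for every `C` agreeing with `C'` outside the divisors of
the level. -/
theorem isEigFn_of_agree157 {𝔫 : Ideal (𝓞 K)} {r : G K} {l : ℕ}
    {o : ℕ → HeightOneSpectrum (𝓞 K)} {S : Finset (HeightOneSpectrum (𝓞 K))}
    (hS : ∀ w : HeightOneSpectrum (𝓞 K), w ∈ S ↔ w.asIdeal ∣ 𝔫) {ψ : G K → ℂ}
    {C' C : EigData K} (h : IsEigFn 𝔫 r l o ψ C') (hC : C'.AgreeOut S C) :
    IsEigFn 𝔫 r l o ψ C := by
  refine ⟨h.inv, fun v hv => ?_, fun w => ?_⟩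
  · have hv' : v ∉ S := fun hm => hv ((hS v).1 hm)
    rw [← (hC.1 v hv').1, ← (hC.1 v hv').2]
    exact h.hecke v hv
  · intro d hd Y hY g
    rw [← hC.2 w d hd]
    exact h.mean w d hd Y hY g

/-! ## 2. Scalar multiples -/

theorem isWFn_smul157 {𝔫 : Ideal (𝓞 K)} {r : G K} {l : ℕ}
    {o : ℕ → HeightOneSpectrum (𝓞 K)} {ψ : G K → ℂ} (h : IsWFn 𝔫 r l o ψ) (t : ℂ) :
    IsWFn 𝔫 r l o (fun x => t * ψ x) := by
  refine ⟨⟨continuous_const.mul h.cusp.cont, ?_, ⟨?_, ?_, ?_, ?_⟩, ?_⟩, ?_, ?_⟩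
  · obtain ⟨C, hC⟩ := h.cusp.bdd
    refine ⟨‖t‖ * C, fun g => ?_⟩
    rw [norm_mul]
    exact mul_le_mul_of_nonneg_left (hC g) (norm_nonneg _)
  · intro γ g
    show t * ψ _ = t * ψ _
    rw [h.cusp.aut.left_inv]
  · intro u hu g
    show t * ψ _ = t * ψ _
    rw [h.cusp.aut.level_inv u hu]
  · intro w k hk g
    show t * ψ _ = T5.trivType k * (t * ψ _)
    rw [h.cusp.aut.arch_compact w k hk]
    simp only [T5.trivType, one_mul]
  · intro g
    show t * ψ _ = t * ψ _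
    rw [h.cusp.aut.ray]
  · have hc := h.cusp.cuspidal
    unfold IsCuspidalFn at hc ⊢
    intro μ hμ D hD n hn g
    show ∫ x in D, t * ψ (n x * g) ∂μ = 0
    rw [integral_const_mul, hc μ hμ D hD n hn g, mul_zero]
  · intro w z hz g
    show t * ψ _ = t * ψ _
    rw [h.arch_scalar w z hz]
  · intro u h1 h2 h3 x
    show t * ψ _ = t * ψ _
    rw [h.iw u h1 h2 h3]

theorem isEigFn_smul157 {𝔫 : Ideal (𝓞 K)} {r : G K} {l : ℕ}
    {o : ℕ → HeightOneSpectrum (𝓞 K)} {ψ : G K → ℂ} {C : EigData K}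
    (h : IsEigFn 𝔫 r l o ψ C) (t : ℂ) : IsEigFn 𝔫 r l o (fun x => t * ψ x) C := by
  refine ⟨isWFn_smul157 h.inv t, fun v hv => ⟨?_, ?_⟩, fun w => ?_⟩
  · intro H hH g
    show ∑ u ∈ H, t * ψ (g * u) = _ * (t * ψ g)
    rw [← Finset.mul_sum, (h.hecke v hv).1 H hH g]
    ring
  · intro z hz g
    show t * ψ (g * z) = _ * (t * ψ g)
    rw [(h.hecke v hv).2 z hz g]
    ring
  · intro d hd Y hY g
    show (∫ α in (0 : ℝ)..(2 * Real.pi), ∫ β in (0 : ℝ)..Real.pi,
        t * ψ (g * Y α β) * ((Real.sin β : ℝ) : ℂ)) = C.m w d * (t * ψ g)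
    simp only [mul_assoc t, intervalIntegral.integral_const_mul]
    rw [h.mean w d hd Y hY g]
    ring

/-! ## 3. Central translates -/

/-- A scalar uniformiser is central. -/
theorem central_of_scalarUnif157 {v : HeightOneSpectrum (𝓞 K)} {z : G K}
    (hz : IsScalarUniformizerAt v z) (x : G K) : x * z = z * x := by
  obtain ⟨⟨hinf, hfin⟩, c, -, hc⟩ := hz
  have hent : ∀ i j : Fin 2, i ≠ j → (z : Matrix (Fin 2) (Fin 2) (Adl K)) i j = 0 := by
    intro i j hij
    refine Prod.ext (funext fun w => ?_) (FiniteAdeleRing.ext K fun v' => ?_)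
    · rw [hinf w i j, Matrix.one_apply_ne hij]
      rfl
    · by_cases hv : v' = v
      · subst hv
        have := congrFun (congrFun hc i) j
        rw [Matrix.diagonal_apply_ne _ hij] at this
        exact this
      · have := congrFun (congrFun (hfin v' hv) i) j
        rw [Matrix.one_apply_ne hij] at this
        exact this
  have hdiag : (z : Matrix (Fin 2) (Fin 2) (Adl K)) 1 1
      = (z : Matrix (Fin 2) (Fin 2) (Adl K)) 0 0 := by
    refine Prod.ext (funext fun w => ?_) (FiniteAdeleRing.ext K fun v' => ?_)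
    · rw [hinf w 1 1, hinf w 0 0, Matrix.one_apply_eq, Matrix.one_apply_eq]
    · by_cases hv : v' = v
      · subst hv
        have h1 := congrFun (congrFun hc 1) 1
        have h0 := congrFun (congrFun hc 0) 0
        rw [Matrix.diagonal_apply_eq] at h1 h0
        exact h1.trans h0.symm
      · have h1 := congrFun (congrFun (hfin v' hv) 1) 1
        have h0 := congrFun (congrFun (hfin v' hv) 0) 0
        rw [Matrix.one_apply_eq] at h1 h0
        exact h1.trans h0.symm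
  apply Units.ext
  rw [Units.val_mul, Units.val_mul]
  ext i j
  rw [Matrix.mul_apply, Matrix.mul_apply, Fin.sum_univ_two, Fin.sum_univ_two]
  fin_cases i <;> fin_cases j <;>
    simp [hent 0 1 (by decide), hent 1 0 (by decide), hdiag, mul_comm]

theorem isWFn_tr_central157 {𝔫 : Ideal (𝓞 K)} {r : G K} {l : ℕ}
    {o : ℕ → HeightOneSpectrum (𝓞 K)} {ψ : G K → ℂ} (h : IsWFn 𝔫 r l o ψ) {z : G K}
    (hz : ∀ x : G K, x * z = z * x) : IsWFn 𝔫 r l o (fun x => ψ (x * z)) := by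
  have sw : ∀ g u : G K, g * u * z = g * z * u := fun g u => by
    rw [mul_assoc, hz u, ← mul_assoc]
  refine ⟨⟨h.cusp.cont.comp (continuous_mul_const z), ?_, ⟨?_, ?_, ?_, ?_⟩, ?_⟩, ?_, ?_⟩
  · obtain ⟨C, hC⟩ := h.cusp.bdd
    exact ⟨C, fun g => hC _⟩
  · intro γ g
    show ψ _ = ψ _
    rw [mul_assoc, h.cusp.aut.left_inv]
  · intro u hu g
    show ψ _ = ψ _
    rw [sw, h.cusp.aut.level_inv u hu]
  · intro w k hk g
    show ψ _ = T5.trivType k * ψ _
    rw [sw, h.cusp.aut.arch_compact w k hk]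
  · intro g
    show ψ _ = ψ _
    rw [sw, h.cusp.aut.ray]
  · have hc := h.cusp.cuspidal
    unfold IsCuspidalFn at hc ⊢
    intro μ hμ D hD n hn g
    show ∫ x in D, ψ (n x * g * z) ∂μ = 0
    simp only [mul_assoc]
    exact hc μ hμ D hD n hn (g * z)
  · intro w u hu g
    show ψ _ = ψ _
    rw [sw, h.arch_scalar w u hu]
  · intro u h1 h2 h3 x
    show ψ _ = ψ _
    rw [sw, h.iw u h1 h2 h3]

theorem isEigFn_tr_central157 {𝔫 : Ideal (𝓞 K)} {r : G K} {l : ℕ}
    {o : ℕ → HeightOneSpectrum (𝓞 K)} {ψ : G K → ℂ} {C : EigData K}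
    (h : IsEigFn 𝔫 r l o ψ C) {z : G K} (hz : ∀ x : G K, x * z = z * x) :
    IsEigFn 𝔫 r l o (fun x => ψ (x * z)) C := by
  have sw : ∀ g u : G K, g * u * z = g * z * u := fun g u => by
    rw [mul_assoc, hz u, ← mul_assoc]
  refine ⟨isWFn_tr_central157 h.inv hz, fun v hv => ⟨?_, ?_⟩, fun w => ?_⟩
  · intro H hH g
    show ∑ u ∈ H, ψ (g * u * z) = _ * ψ (g * z)
    simp only [sw]
    exact (h.hecke v hv).1 H hH (g * z)
  · intro u hu g
    show ψ (g * u * z) = _ * ψ (g * z)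
    rw [sw]
    exact (h.hecke v hv).2 u hu (g * z)
  · intro d hd Y hY g
    show (∫ α in (0 : ℝ)..(2 * Real.pi), ∫ β in (0 : ℝ)..Real.pi,
        ψ (g * Y α β * z) * ((Real.sin β : ℝ) : ℂ)) = C.m w d * ψ (g * z)
    simp only [sw]
    exact h.mean w d hd Y hY (g * z)

theorem isEigFn_shift157 {𝔫 : Ideal (𝓞 K)} {r : G K} {l : ℕ}
    {o : ℕ → HeightOneSpectrum (𝓞 K)} {ψ : G K → ℂ} {C : EigData K}
    (h : IsEigFn 𝔫 r l o ψ C) {v : HeightOneSpectrum (𝓞 K)} {z : G K}
    (hz : IsScalarUniformizerAt v z) (k : ℤ) : IsEigFn 𝔫 r l o (shiftOp z k ψ) C := by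
  have hc : ∀ x : G K, x * z ^ k = z ^ k * x := fun x =>
    ((show Commute x z from central_of_scalarUnif157 hz x).zpow_right k)
  exact isEigFn_tr_central157 h hc

end Fermat.Agent.LT.T7.H157

end
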