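import Mathlib
import Fermat.Agent.LT.T7.H561.BlocksSpec
import Fermat.Agent.LT.T7.H157.BlkLin
import Fermat.Agent.LT.T7.H157.BlkEig

/-!
# Row LT, tower T7, leaf T7.L2.2.B7 (helper157): the matrices of the operators in a class

OFF-MAIN.  ADDITIVE (new names only, all ending in `157`).  Every proof is complete, nothing
assumed.
-/

set_option autoImplicit false

open AutomorphicForm IsDedekindDomain NumberField MeasureTheory
open scoped ComplexConjugate Matrix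

noncomputable section

namespace Fermat.Agent.LT.T7.H157

open Fermat.Agent.LT.H556 Fermat.Agent.LT.H556.A0 Fermat.Agent.LT.T7 Fermat.Agent.LT.T7.H561

attribute [local instance] Fermat.Agent.LT.T5.instMeasurableSpaceG

section OneField

variable {K : Type} [Field K] [NumberField K]

/-- The matrix of `T` in the family `v` (entries `⟨T v_a, v_b⟩`). -/
def mat157 (μ : Measure (G K)) (F : Set (G K)) {n : ℕ} (v : Fin n → G K → ℂ)
    (T : (G K → ℂ) → (G K → ℂ)) : Matrix (Fin n) (Fin n) ℂ :=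
  Matrix.of fun b a => T5.innerD μ F (T (v a)) (v b)

theorem mat_apply157 (μ : Measure (G K)) (F : Set (G K)) {n : ℕ} (v : Fin n → G K → ℂ)
    (T : (G K → ℂ) → (G K → ℂ)) (b a : Fin n) :
    mat157 μ F v T b a = T5.innerD μ F (T (v a)) (v b) := rfl

variable {μ : Measure (G K)} {F : Set (G K)} {n : ℕ} {v : Fin n → G K → ℂ}

theorem IsON157.coeff_smul (hv : IsON157 μ F v) (t : ℂ) (c : Fin n → ℂ) (b : Fin n) :
    T5.innerD μ F (fun x => t * lin157 v c x) (v b) = t * c b := by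
  have e : (fun x => t * lin157 v c x) = lin157 v (fun a => t * c a) := by
    funext x
    simp only [lin157, Finset.mul_sum]
    exact Finset.sum_congr rfl fun a _ => by ring
  rw [e, hv.coeff]

theorem IsON157.inner_lin_lin (hv : IsON157 μ F v) (c d : Fin n → ℂ) :
    T5.innerD μ F (lin157 v c) (lin157 v d) = ∑ a, c a * conj (d a) := by
  have e : T5.innerD μ F (lin157 v c) (lin157 v d)
      = ∑ a, c a * T5.innerD μ F (v a) (lin157 v d) :=
    innerD_sum_left157 hv.fin c hv.nice (hv.nice_lin d)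
  rw [e]
  refine Finset.sum_congr rfl fun a _ => ?_
  rw [← innerD_conj157, hv.coeff]

/-- A linear combination of functions orthogonal to `h` is orthogonal to `h`. -/
theorem innerD_smul_lin_orth157 (hF : μ F < ⊤) {n' : ℕ} {v' : Fin n' → G K → ℂ}
    (hv' : ∀ b, Nice157 (v' b)) {h : G K → ℂ} (hh : Nice157 h)
    (horth : ∀ b, T5.innerD μ F (v' b) h = 0) (t : ℂ) (d : Fin n' → ℂ) :
    T5.innerD μ F (fun x => t * lin157 v' d x) h = 0 := by
  have e : (fun x => t * lin157 v' d x) = fun x => ∑ a, (t * d a) * v' a x := by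
    funext x
    simp only [lin157, Finset.mul_sum]
    exact Finset.sum_congr rfl fun a _ => by ring
  rw [e, innerD_sum_left157 hF _ hv' hh]
  simp only [horth, mul_zero, Finset.sum_const_zero]

theorem innerD_zero_left157 (μ : Measure (G K)) (F : Set (G K)) {e : G K → ℂ}
    (he : ∀ x, e x = 0) (h : G K → ℂ) : T5.innerD μ F e h = 0 := by
  unfold T5.innerD
  simp [he]

theorem Rconv_zero157 (μ : Measure (G K)) (φ : G K → ℂ) {e : G K → ℂ}
    (he : ∀ x, e x = 0) (x : G K) : T5.Rconv μ φ e x = 0 := by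
  unfold T5.Rconv
  simp [he]

end OneField

section Class

variable {K K' : Type} [Field K] [NumberField K] [Field K'] [NumberField K'] [Algebra K K']

/-- The context of one class. -/
structure Ctx157 (ℓ : ℕ) (Φ : HeckeEigensystem K' ℂ) (Dt : L2Data K K') (g : G K')
    (Hs : ℕ → Finset (G K')) (ω' : ℕ → G K') (Hg : Finset (G K')) (C : EigData K') (n : ℕ)
    (v : Fin n → G K' → ℂ) : Prop where
  data : IsL2Data ℓ Φ Dt
  bad : Dt.IsBad g
  ops : IsWOps561 Dt ℓ g Hs ω' Hg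
  basis : IsClassBasis561 Dt ℓ C n v

variable {ℓ : ℕ} {Φ : HeckeEigensystem K' ℂ} {Dt : L2Data K K'} {g : G K'}
  {Hs : ℕ → Finset (G K')} {ω' : ℕ → G K'} {Hg : Finset (G K')} {C : EigData K'} {n : ℕ}
  {v : Fin n → G K' → ℂ}

theorem finite_of_data157 (hDt : IsL2Data ℓ Φ Dt) (hg : Dt.IsBad g) :
    Dt.R'.μ Dt.R'.F < ⊤ :=
  (hDt.comp g hg).frame'.frame.finite

namespace Ctx157

variable (h : Ctx157 ℓ Φ Dt g Hs ω' Hg C n v)
include h

theorem on : IsON157 Dt.R'.μ Dt.R'.F v :=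
  ⟨finite_of_data157 h.data h.bad, fun a => nice_of_cusp157 (h.basis.eig a).inv.cusp,
    h.basis.orth⟩

theorem wfn (a : Fin n) : IsWFn Dt.𝔑₀ Dt.R'.r ℓ Dt.o (v a) := (h.basis.eig a).inv

/-- The matrix of an operator which maps the class into a class agreeing with it. -/
theorem rep_of_eig (T : (G K' → ℂ) → (G K' → ℂ)) (C' : EigData K')
    (hT : ∀ a, IsEigFn Dt.𝔑₀ Dt.R'.r ℓ Dt.o (T (v a)) C') (hC : C'.AgreeOut Dt.S' C) :
    Rep157 v T (mat157 Dt.R'.μ Dt.R'.F v T) :=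
  rep_of_span157 h.on T fun a => h.basis.span _ C' (hT a) hC

theorem repS (j : ℕ) :
    Rep157 v (cosetOp (Hs j)) (mat157 Dt.R'.μ Dt.R'.F v (cosetOp (Hs j))) :=
  h.rep_of_eig _ C (fun a => h.ops.S_eig j _ _ (h.basis.eig a)) (agreeOut_refl157 _ _)

theorem repρ (j : ℕ) :
    Rep157 v (trOp561 (ω' j)) (mat157 Dt.R'.μ Dt.R'.F v (trOp561 (ω' j))) :=
  h.rep_of_eig _ C (fun a => h.ops.ρ_eig j _ _ (h.basis.eig a)) (agreeOut_refl157 _ _)

theorem repB : Rep157 v (cosetOp Hg) (mat157 Dt.R'.μ Dt.R'.F v (cosetOp Hg)) :=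
  h.rep_of_eig _ C (fun a => h.ops.B_eig _ _ (h.basis.eig a)) (agreeOut_refl157 _ _)

theorem repA (σC : EigData K' → EigData K')
    (hσe : ∀ (ψ : G K' → ℂ) (C : EigData K'), IsEigFn Dt.𝔑₀ Dt.R'.r ℓ Dt.o ψ C →
      IsEigFn Dt.𝔑₀ Dt.R'.r ℓ Dt.o (T5.Rsig Dt.s ψ) (σC C))
    (hst : (σC C).AgreeOut Dt.S' C) :
    Rep157 v (T5.Rsig Dt.s) (mat157 Dt.R'.μ Dt.R'.F v (T5.Rsig Dt.s)) :=
  h.rep_of_eig _ (σC C) (fun a => hσe _ _ (h.basis.eig a)) hst

theorem ρ_unit (j : ℕ) :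
    (mat157 Dt.R'.μ Dt.R'.F v (trOp561 (ω' j)))ᴴ * mat157 Dt.R'.μ Dt.R'.F v (trOp561 (ω' j))
      = 1 := by
  ext b a
  have e := h.ops.ρ_iso j (v a) (v b) (h.wfn a) (h.wfn b)
  rw [h.repρ j a, h.repρ j b, h.on.inner_lin_lin, h.basis.orth] at e
  rw [Matrix.mul_apply, Matrix.one_apply]
  have e2 : ∀ c, (mat157 Dt.R'.μ Dt.R'.F v (trOp561 (ω' j)))ᴴ b c
        * mat157 Dt.R'.μ Dt.R'.F v (trOp561 (ω' j)) c a
      = mat157 Dt.R'.μ Dt.R'.F v (trOp561 (ω' j)) c a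
        * conj (mat157 Dt.R'.μ Dt.R'.F v (trOp561 (ω' j)) c b) := by
    intro c
    rw [Matrix.conjTranspose_apply, mul_comm]
    rfl
  simp only [e2]
  rw [e]
  by_cases hab : a = b
  · subst hab
    simp
  · rw [if_neg hab, if_neg (fun hba => hab hba.symm)]

theorem ρ_det (j : ℕ) : IsUnit (mat157 Dt.R'.μ Dt.R'.F v (trOp561 (ω' j))).det :=
  Matrix.isUnit_det_of_left_inverse (h.ρ_unit j)

theorem S_herm (j : ℕ) :
    (mat157 Dt.R'.μ Dt.R'.F v (cosetOp (Hs j)))ᴴ = mat157 Dt.R'.μ Dt.R'.F v (cosetOp (Hs j)) := by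
  ext b a
  rw [Matrix.conjTranspose_apply, mat_apply157, mat_apply157]
  have e := h.ops.S_adj j (v a) (v b) (h.wfn a) (h.wfn b)
  rw [e]
  exact innerD_conj157 _ _ _ _

/-- The Iwahori operator of the translated system. -/
theorem repIw :
    Rep157 v (iwOp (Dt.o 0) ((Hs 0).map (mulRightEmbedding (ω' 0))))
      ((((Real.sqrt ((Ideal.absNorm (Dt.o 0).asIdeal : ℕ) : ℝ) : ℝ) : ℂ)⁻¹)
        • (mat157 Dt.R'.μ Dt.R'.F v (cosetOp (Hs 0))
            * mat157 Dt.R'.μ Dt.R'.F v (trOp561 (ω' 0)))) :=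
  rep_congr157
    (rep_smul157 (rep_comp157 (isLin_coset157 (Hs 0)) (h.repS 0) (h.repρ 0)) _)
    (fun a => iwOp_map157 (Dt.o 0) (Hs 0) (ω' 0) (v a))

theorem repZ :
    Rep157 v (trOp561 (ω' 0 * ω' 0))
      (mat157 Dt.R'.μ Dt.R'.F v (trOp561 (ω' 0))
        * mat157 Dt.R'.μ Dt.R'.F v (trOp561 (ω' 0))) :=
  rep_congr157 (rep_comp157 (isLin_tr157 (ω' 0)) (h.repρ 0) (h.repρ 0))
    (fun a => trOp_mul157 (ω' 0) (ω' 0) (v a))

theorem repT (k : ℤ) (m : ℕ) :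
    Rep157 v
      (fun ψ => cosetOp Hg (shiftOp (ω' 0 * ω' 0) k
        ((iwOp (Dt.o 0) ((Hs 0).map (mulRightEmbedding (ω' 0))))^[m] ψ)))
      (mat157 Dt.R'.μ Dt.R'.F v (cosetOp Hg)
        * (mat157 Dt.R'.μ Dt.R'.F v (trOp561 (ω' 0))
            * mat157 Dt.R'.μ Dt.R'.F v (trOp561 (ω' 0))) ^ k
        * ((((Real.sqrt ((Ideal.absNorm (Dt.o 0).asIdeal : ℕ) : ℝ) : ℝ) : ℂ)⁻¹)
            • (mat157 Dt.R'.μ Dt.R'.F v (cosetOp (Hs 0))
                * mat157 Dt.R'.μ Dt.R'.F v (trOp561 (ω' 0)))) ^ m) := by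
  have hU : IsUnit (mat157 Dt.R'.μ Dt.R'.F v (trOp561 (ω' 0))
      * mat157 Dt.R'.μ Dt.R'.F v (trOp561 (ω' 0))).det := by
    rw [Matrix.det_mul]
    exact (h.ρ_det 0).mul (h.ρ_det 0)
  have r1 := rep_iterate157 (isLin_iw157 (Dt.o 0) ((Hs 0).map (mulRightEmbedding (ω' 0))))
    h.repIw m
  have r2 := rep_shift157 h.repZ hU k
  have r3 := rep_comp157 (isLin_coset157 Hg) h.repB
    (rep_comp157 (isLin_shift157 (ω' 0 * ω' 0) k) r2 r1)
  rw [← Matrix.mul_assoc] at r3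
  exact r3

end Ctx157

theorem isLin_T157 (Hs : ℕ → Finset (G K')) (ω' : ℕ → G K') (Hg : Finset (G K'))
    (w : HeightOneSpectrum (𝓞 K')) (k : ℤ) (m : ℕ) :
    IsLin157 (fun ψ => cosetOp Hg (shiftOp (ω' 0 * ω' 0) k
        ((iwOp w ((Hs 0).map (mulRightEmbedding (ω' 0))))^[m] ψ))) :=
  isLin_comp157 (isLin_coset157 Hg)
    (isLin_comp157 (isLin_shift157 _ k) (isLin_iterate157 (isLin_iw157 _ _) m))

omit [Algebra K K'] in
/-- The operators of OP-up preserve the eigenfunctions. -/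
theorem isEigFn_T157 (hOps : IsWOps561 Dt ℓ g Hs ω' Hg) {ψ : G K' → ℂ} {C' : EigData K'}
    (hψ : IsEigFn Dt.𝔑₀ Dt.R'.r ℓ Dt.o ψ C') (k : ℤ) (m : ℕ) :
    IsEigFn Dt.𝔑₀ Dt.R'.r ℓ Dt.o
      (cosetOp Hg (shiftOp (ω' 0 * ω' 0) k
        ((iwOp (Dt.o 0) ((Hs 0).map (mulRightEmbedding (ω' 0))))^[m] ψ))) C' := by
  have h1 : ∀ m : ℕ, IsEigFn Dt.𝔑₀ Dt.R'.r ℓ Dt.o
      ((iwOp (Dt.o 0) ((Hs 0).map (mulRightEmbedding (ω' 0))))^[m] ψ) C' := by
    intro m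
    induction m with
    | zero => exact hψ
    | succ m ih =>
      rw [Function.iterate_succ_apply', iwOp_map157]
      exact isEigFn_smul157 (hOps.S_eig 0 _ _ (hOps.ρ_eig 0 _ _ ih)) _
  exact hOps.B_eig _ _ (isEigFn_shift157 (h1 m) hOps.unif k)

/-- The hypothesis of `OffWC561`. -/
theorem isWFn_Rconv157 (hDt : IsL2Data ℓ Φ Dt) (hg : Dt.IsBad g)
    (hOps : IsWOps561 Dt ℓ g Hs ω' Hg) (X : List (Gen K')) (hX : ∀ x ∈ X, x.Out Dt.S')
    (k : ℤ) (m : ℕ) (ψ : G K' → ℂ) (C' : EigData K')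
    (hψ : IsEigFn Dt.𝔑₀ Dt.R'.r ℓ Dt.o ψ C') :
    IsWFn Dt.𝔑₀ Dt.R'.r ℓ Dt.o (T5.Rconv Dt.R'.μ (Dt.φ' g X k m) ψ) := by
  have e : T5.Rconv Dt.R'.μ (Dt.φ' g X k m) ψ
      = fun x => (wordEv X C' * Dt.c g C') * cosetOp Hg (shiftOp (ω' 0 * ω' 0) k
        ((iwOp (Dt.o 0) ((Hs 0).map (mulRightEmbedding (ω' 0))))^[m] ψ)) x :=
    funext fun x => hDt.op_up g X k m hg hX ψ C' hψ Hg _ _ hOps.dbl hOps.iwsys hOps.unif x
  rw [e]
  exact isWFn_smul157 (isEigFn_T157 hOps hψ k m).inv _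

end Class

end Fermat.Agent.LT.T7.H157

end
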