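import Mathlib
import Fermat.Agent.LT.T7.H561.BlocksSpec
import Fermat.Agent.LT.T7.H157.BlkLin
import Fermat.Agent.LT.T7.H157.BlkEig
import Fermat.Agent.LT.T7.H157.BlkClass

/-!
# Row LT, tower T7, leaf T7.L2.2.B7 = `BlocksAsmC561` (helper157): THE ASSEMBLY

OFF-MAIN.  ADDITIVE (new names only, all ending in `157`).  Every proof is complete, nothing
assumed.  Target: `BlocksAsmC561 K K'` of `T7/H561/BlocksSpec.lean`
(helper561@fa57d28b6, sha256 5ceeaa4d32439a1f) VERBATIM.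

    blocksAsmC157 : BlocksAsmC561 K K'
-/

set_option autoImplicit false

open AutomorphicForm IsDedekindDomain NumberField MeasureTheory
open scoped ComplexConjugate Matrix

noncomputable section

namespace Fermat.Agent.LT.T7.H157

open Fermat.Agent.LT.H556 Fermat.Agent.LT.H556.A0 Fermat.Agent.LT.T7 Fermat.Agent.LT.T7.H561

attribute [local instance] Fermat.Agent.LT.T5.instMeasurableSpaceG

variable {K K' : Type} [Field K] [NumberField K] [Field K'] [NumberField K'] [Algebra K K']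

variable {ℓ : ℕ} {Φ : HeckeEigensystem K' ℂ} {Dt : L2Data K K'} {g : G K'}
  {Hs : ℕ → Finset (G K')} {ω' : ℕ → G K'} {Hg : Finset (G K')} {C : EigData K'} {n : ℕ}
  {v : Fin n → G K' → ℂ}

/-- **The Iwahori--Hecke structure of a stable class.** -/
theorem iwBlock157 (h : Ctx157 ℓ Φ Dt g Hs ω' Hg C n v) (σC : EigData K' → EigData K')
    (hσe : ∀ (ψ : G K' → ℂ) (C : EigData K'), IsEigFn Dt.𝔑₀ Dt.R'.r ℓ Dt.o ψ C →
      IsEigFn Dt.𝔑₀ Dt.R'.r ℓ Dt.o (T5.Rsig Dt.s ψ) (σC C))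
    (hst : (σC C).AgreeOut Dt.S' C) :
    IsIwBlock561 ℓ ((Ideal.absNorm (Dt.o 0).asIdeal : ℕ) : ℝ)
      (mat157 Dt.R'.μ Dt.R'.F v (T5.Rsig Dt.s))
      (Dt.c g C • mat157 Dt.R'.μ Dt.R'.F v (cosetOp Hg))
      (fun j => mat157 Dt.R'.μ Dt.R'.F v (cosetOp (Hs j)))
      (fun j => mat157 Dt.R'.μ Dt.R'.F v (trOp561 (ω' j))) := by
  have hA := h.repA σC hσe hst
  have hv := h.on
  have lS := fun j => isLin_coset157 (K := K') (Hs j)
  have lρ := fun j => isLin_tr157 (K := K') (ω' j)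
  have lA := isLin_Rsig157 Dt.s
  have lB := isLin_coset157 Hg
  have hBS : ∀ j, mat157 Dt.R'.μ Dt.R'.F v (cosetOp Hg)
        * mat157 Dt.R'.μ Dt.R'.F v (cosetOp (Hs j))
      = mat157 Dt.R'.μ Dt.R'.F v (cosetOp (Hs j)) * mat157 Dt.R'.μ Dt.R'.F v (cosetOp Hg) :=
    fun j => rep_unique157 hv (rep_comp157 lB h.repB (h.repS j))
      (rep_comp157 (lS j) (h.repS j) h.repB) fun a x => h.ops.B_S j (v a) (h.wfn a) x
  have hBρ : ∀ j, mat157 Dt.R'.μ Dt.R'.F v (cosetOp Hg)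
        * mat157 Dt.R'.μ Dt.R'.F v (trOp561 (ω' j))
      = mat157 Dt.R'.μ Dt.R'.F v (trOp561 (ω' j)) * mat157 Dt.R'.μ Dt.R'.F v (cosetOp Hg) :=
    fun j => rep_unique157 hv (rep_comp157 lB h.repB (h.repρ j))
      (rep_comp157 (lρ j) (h.repρ j) h.repB) fun a x => h.ops.B_ρ j (v a) (h.wfn a) x
  refine
    { S_herm := fun j => h.S_herm j
      S_quad := fun j => ?_
      ρ_unit := fun j => h.ρ_unit j
      ρ_central := fun j => ?_
      A_S := fun j => ?_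
      A_ρ := fun j => ?_
      per_S := fun j => ?_
      per_ρ := fun j => ?_
      comm_SS := fun j j' hj hj' hne => ?_
      comm_Sρ := fun j j' hj hj' hne => ?_
      comm_ρρ := fun j j' hj hj' hne => ?_
      B_S := fun j => ?_
      B_ρ := fun j => ?_ }
  · -- S_quad
    refine rep_unique157 hv (rep_comp157 (lS j) (h.repS j) (h.repS j))
      (rep_add157 (rep_smul157 (h.repS j) _) (rep_smul157 rep_id157 _)) fun a x => ?_
    have e := h.ops.S_quad j (v a) (h.wfn a) x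
    rw [e]
    simp only [Complex.ofReal_natCast]
  · -- ρ_central
    exact rep_unique157 hv
      (rep_comp157 (isLin_comp157 (lρ j) (lρ j))
        (rep_comp157 (lρ j) (h.repρ j) (h.repρ j)) (h.repS j))
      (rep_comp157 (lS j) (h.repS j) (rep_comp157 (lρ j) (h.repρ j) (h.repρ j)))
      fun a x => h.ops.ρ_central j (v a) (h.wfn a) x
  · -- A_S
    exact rep_unique157 hv (rep_comp157 lA hA (h.repS j))
      (rep_comp157 (lS (j + 1)) (h.repS (j + 1)) hA)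
      fun a x => h.ops.σ_S j (v a) (h.wfn a) x
  · -- A_ρ
    exact rep_unique157 hv (rep_comp157 lA hA (h.repρ j))
      (rep_comp157 (lρ (j + 1)) (h.repρ (j + 1)) hA)
      fun a x => h.ops.σ_ρ j (v a) (h.wfn a) x
  · -- per_S
    exact rep_unique157 hv (h.repS (j + ℓ)) (h.repS j)
      fun a x => h.ops.per_S j (v a) (h.wfn a) x
  · -- per_ρ
    exact rep_unique157 hv (h.repρ (j + ℓ)) (h.repρ j)
      fun a x => h.ops.per_ρ j (v a) (h.wfn a) x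
  · -- comm_SS
    exact rep_unique157 hv (rep_comp157 (lS j) (h.repS j) (h.repS j'))
      (rep_comp157 (lS j') (h.repS j') (h.repS j))
      fun a x => h.ops.comm_SS j j' hj hj' hne (v a) (h.wfn a) x
  · -- comm_Sρ
    exact rep_unique157 hv (rep_comp157 (lS j) (h.repS j) (h.repρ j'))
      (rep_comp157 (lρ j') (h.repρ j') (h.repS j))
      fun a x => h.ops.comm_Sρ j j' hj hj' hne (v a) (h.wfn a) x
  · -- comm_ρρ
    exact rep_unique157 hv (rep_comp157 (lρ j) (h.repρ j) (h.repρ j'))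
      (rep_comp157 (lρ j') (h.repρ j') (h.repρ j))
      fun a x => h.ops.comm_ρρ j j' hj hj' hne (v a) (h.wfn a) x
  · -- B_S
    show (Dt.c g C • mat157 Dt.R'.μ Dt.R'.F v (cosetOp Hg))
        * mat157 Dt.R'.μ Dt.R'.F v (cosetOp (Hs j))
      = mat157 Dt.R'.μ Dt.R'.F v (cosetOp (Hs j))
        * (Dt.c g C • mat157 Dt.R'.μ Dt.R'.F v (cosetOp Hg))
    rw [Matrix.smul_mul, Matrix.mul_smul, hBS j]
  · -- B_ρ
    show (Dt.c g C • mat157 Dt.R'.μ Dt.R'.F v (cosetOp Hg))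
        * mat157 Dt.R'.μ Dt.R'.F v (trOp561 (ω' j))
      = mat157 Dt.R'.μ Dt.R'.F v (trOp561 (ω' j))
        * (Dt.c g C • mat157 Dt.R'.μ Dt.R'.F v (cosetOp Hg))
    rw [Matrix.smul_mul, Matrix.mul_smul, hBρ j]

/-- **The matrix coefficients inside a stable class.** -/
theorem coeff157 (h : Ctx157 ℓ Φ Dt g Hs ω' Hg C n v) (σC : EigData K' → EigData K')
    (hσe : ∀ (ψ : G K' → ℂ) (C : EigData K'), IsEigFn Dt.𝔑₀ Dt.R'.r ℓ Dt.o ψ C →
      IsEigFn Dt.𝔑₀ Dt.R'.r ℓ Dt.o (T5.Rsig Dt.s ψ) (σC C))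
    (hst : (σC C).AgreeOut Dt.S' C) (X : List (Gen K')) (hX : ∀ x ∈ X, x.Out Dt.S')
    (k : ℤ) (m : ℕ) (a b : Fin n) :
    T5.innerD Dt.R'.μ Dt.R'.F
        (T5.Rconv Dt.R'.μ (Dt.φ' g X k m) (T5.Rsig Dt.s (v a))) (v b)
      = wordEv X C
        * ((Dt.c g C • mat157 Dt.R'.μ Dt.R'.F v (cosetOp Hg))
            * (mat157 Dt.R'.μ Dt.R'.F v (trOp561 (ω' 0))
                * mat157 Dt.R'.μ Dt.R'.F v (trOp561 (ω' 0))) ^ k
            * (((Real.sqrt ((Ideal.absNorm (Dt.o 0).asIdeal : ℕ) : ℝ) : ℝ) : ℂ)⁻¹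
                • (mat157 Dt.R'.μ Dt.R'.F v (cosetOp (Hs 0))
                    * mat157 Dt.R'.μ Dt.R'.F v (trOp561 (ω' 0)))) ^ m
            * mat157 Dt.R'.μ Dt.R'.F v (T5.Rsig Dt.s)) b a := by
  have hψ : IsEigFn Dt.𝔑₀ Dt.R'.r ℓ Dt.o (T5.Rsig Dt.s (v a)) C :=
    isEigFn_of_agree157 h.data.mem_S' (hσe _ _ (h.basis.eig a)) hst
  have e : T5.Rconv Dt.R'.μ (Dt.φ' g X k m) (T5.Rsig Dt.s (v a))
      = fun x => (wordEv X C * Dt.c g C) * cosetOp Hg (shiftOp (ω' 0 * ω' 0) k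
        ((iwOp (Dt.o 0) ((Hs 0).map (mulRightEmbedding (ω' 0))))^[m]
          (T5.Rsig Dt.s (v a)))) x :=
    funext fun x => h.data.op_up g X k m h.bad hX _ C hψ Hg _ _ h.ops.dbl h.ops.iwsys
      h.ops.unif x
  have R := rep_comp157 (isLin_T157 Hs ω' Hg (Dt.o 0) k m) (h.repT k m)
    (h.repA σC hσe hst) a
  beta_reduce at R
  rw [e, R, h.on.coeff_smul]
  rw [Matrix.smul_mul, Matrix.smul_mul, Matrix.smul_mul, Matrix.smul_apply, smul_eq_mul]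
  ring

/-- **The diagonal coefficients in a class which is not stable vanish.** -/
theorem off_class157 (hDt : IsL2Data ℓ Φ Dt) (hg : Dt.IsBad g)
    (hOps : IsWOps561 Dt ℓ g Hs ω' Hg) {ι : Type} {n : ι → ℕ} {C : ι → EigData K'}
    {v : (i : ι) → Fin (n i) → G K' → ℂ} (hWS : IsWSpec561 Dt ℓ ι n C v)
    (σC : EigData K' → EigData K')
    (hσe : ∀ (ψ : G K' → ℂ) (C : EigData K'), IsEigFn Dt.𝔑₀ Dt.R'.r ℓ Dt.o ψ C →
      IsEigFn Dt.𝔑₀ Dt.R'.r ℓ Dt.o (T5.Rsig Dt.s ψ) (σC C))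
    (i : ι) (hns : ¬ (σC (C i)).AgreeOut Dt.S' (C i)) (X : List (Gen K'))
    (hX : ∀ x ∈ X, x.Out Dt.S') (k : ℤ) (m : ℕ) (a : Fin (n i)) :
    T5.diagCoeff Dt.s Dt.R'.μ Dt.R'.F (Dt.φ' g X k m) (v i a) = 0 := by
  unfold T5.diagCoeff
  have hψσ : IsEigFn Dt.𝔑₀ Dt.R'.r ℓ Dt.o (T5.Rsig Dt.s (v i a)) (σC (C i)) :=
    hσe _ _ ((hWS.basis i).eig a)
  by_cases hz : ∃ x, T5.Rsig Dt.s (v i a) x ≠ 0
  · obtain ⟨i', hi'⟩ := hWS.cover _ _ hψσ hz
    have hne : i' ≠ i := by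
      rintro rfl
      exact hns hi'
    have h' : Ctx157 ℓ Φ Dt g Hs ω' Hg (C i') (n i') (v i') := ⟨hDt, hg, hOps, hWS.basis i'⟩
    have hψ : IsEigFn Dt.𝔑₀ Dt.R'.r ℓ Dt.o (T5.Rsig Dt.s (v i a)) (C i') :=
      isEigFn_of_agree157 hDt.mem_S' hψσ hi'
    obtain ⟨c₀, hc₀⟩ := (hWS.basis i').span _ (C i') hψ (agreeOut_refl157 _ _)
    have e0 : T5.Rsig Dt.s (v i a) = lin157 (v i') c₀ := funext hc₀
    have e : T5.Rconv Dt.R'.μ (Dt.φ' g X k m) (T5.Rsig Dt.s (v i a))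
        = fun x => (wordEv X (C i') * Dt.c g (C i')) * cosetOp Hg (shiftOp (ω' 0 * ω' 0) k
          ((iwOp (Dt.o 0) ((Hs 0).map (mulRightEmbedding (ω' 0))))^[m]
            (T5.Rsig Dt.s (v i a)))) x :=
      funext fun x => hDt.op_up g X k m hg hX _ (C i') hψ Hg _ _ hOps.dbl hOps.iwsys
        hOps.unif x
    rw [e, e0, rep_apply157 (isLin_T157 Hs ω' Hg (Dt.o 0) k m) (h'.repT k m)]
    exact innerD_smul_lin_orth157 (finite_of_data157 hDt hg) h'.on.nice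
      (nice_of_cusp157 ((hWS.basis i).eig a).inv.cusp)
      (fun b => hWS.orth i' i b a hne) _ _
  · have hz' : ∀ x, T5.Rsig Dt.s (v i a) x = 0 := fun x =>
      Classical.byContradiction fun hx => hz ⟨x, hx⟩
    exact innerD_zero_left157 _ _ (fun x => Rconv_zero157 _ _ hz' x) _

variable (K K')

/-- **LEAF T7.L2.2.B7 = BLOCKS-ASSEMBLY.** -/
theorem blocksAsmC157 : BlocksAsmC561 K K' := by
  intro hW hC hS hO hP hF ℓ hcyc hℓ hcplx Φ hΦ hconst Dt hDt hσ g hg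
  obtain ⟨ι, n, C, v, hWS⟩ := hW ℓ hcyc hℓ hcplx Φ hΦ hconst Dt hDt
  obtain ⟨e₀, idx, hONB, hinj, hev, hperp⟩ :=
    hC ℓ hcyc hℓ hcplx Φ hΦ hconst Dt hDt g hg ι n C v hWS
  obtain ⟨σC, hσa, hσe, hσΦ⟩ := hS ℓ hcyc hℓ hcplx Φ hΦ hconst Dt hDt hσ
  obtain ⟨Hs, ω', Hg, hOps⟩ := hO ℓ hcyc hℓ hcplx Φ hΦ hconst Dt hDt hσ g hg
  obtain ⟨ψΦ, hψΦ, hne⟩ := hP ℓ hcyc hℓ hcplx Φ hΦ hconst Dt hDt
  have hctx : ∀ i, Ctx157 ℓ Φ Dt g Hs ω' Hg (C i) (n i) (v i) :=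
    fun i => ⟨hDt, hg, hOps, hWS.basis i⟩
  have hfun : ∀ i, (fun a => e₀ (idx i a)) = v i := fun i => funext fun a => hev i a
  refine ⟨e₀,
    { ι := {i : ι // (σC (C i)).AgreeOut Dt.S' (C i)}
      n := fun i => n i.1
      idx := fun i => idx i.1
      C := fun i => C i.1
      A := fun i => mat157 Dt.R'.μ Dt.R'.F (v i.1) (T5.Rsig Dt.s)
      B := fun i => Dt.c g (C i.1) • mat157 Dt.R'.μ Dt.R'.F (v i.1) (cosetOp Hg)
      S := fun i j => mat157 Dt.R'.μ Dt.R'.F (v i.1) (cosetOp (Hs j))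
      ρ := fun i j => mat157 Dt.R'.μ Dt.R'.F (v i.1) (trOp561 (ω' j)) }, ?_⟩
  refine
    { onb := hONB
      inj := ?_
      unitary := fun i => hWS.unitary i.1
      distinct := fun i i' hii => Subtype.ext (hWS.distinct i.1 i'.1 hii)
      basis := ?_
      phi := ?_
      iw := fun i => iwBlock157 (hctx i.1) σC hσe i.2
      coeff := ?_
      off := ?_ }
  · -- inj
    rintro ⟨i, hi⟩ a ⟨i', hi'⟩ a' hidx
    have e := hinj i a i' a' hidx
    obtain ⟨rfl, e2⟩ := Sigma.mk.inj_iff.1 e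
    obtain rfl := eq_of_heq e2
    rfl
  · -- basis
    intro i
    show IsClassBasis561 Dt ℓ (C i.1) (n i.1) (fun a => e₀ (idx i.1 a))
    rw [hfun i.1]
    exact hWS.basis i.1
  · -- phi
    obtain ⟨i₀, hi₀⟩ := hWS.cover ψΦ (eigOf Φ) hψΦ hne
    have hst : (σC (C i₀)).AgreeOut Dt.S' (C i₀) :=
      agreeOut_trans157 (hσa _ _ (agreeOut_symm157 hi₀)) (agreeOut_trans157 hσΦ hi₀)
    exact ⟨⟨i₀, hst⟩, agreeOut_symm157 hi₀⟩
  · -- coeff
    intro X hX k m i a b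
    show T5.innerD Dt.R'.μ Dt.R'.F
        (T5.Rconv Dt.R'.μ (Dt.φ' g X k m) (T5.Rsig Dt.s (e₀ (idx i.1 a))))
        (e₀ (idx i.1 b)) = _
    rw [hev i.1 a, hev i.1 b]
    exact coeff157 (hctx i.1) σC hσe i.2 X hX k m a b
  · -- off
    intro X hX k m j hj
    by_cases hr : ∃ (i : ι) (a : Fin (n i)), idx i a = j
    · obtain ⟨i, a, rfl⟩ := hr
      have hns : ¬ (σC (C i)).AgreeOut Dt.S' (C i) := fun hs => hj ⟨i, hs⟩ a rfl
      rw [hev i a]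
      exact off_class157 hDt hg hOps hWS σC hσe i hns X hX k m a
    · exact hF ℓ hcyc hℓ hcplx Φ hΦ hconst Dt hDt g hg ι n C v hWS
        (fun X hX k m ψ C' hψ => isWFn_Rconv157 hDt hg hOps X hX k m ψ C' hψ)
        (e₀ j) (hONB.cusp j) (hperp j fun i a hia => hr ⟨i, a, hia⟩) X hX k m

end Fermat.Agent.LT.T7.H157

end
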